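import Mathlib.NumberTheory.Padics.RingHoms
import Mathlib.Algebra.Module.Torsion.Basic
import Mathlib.RingTheory.AdicCompletion.Basic
import Mathlib.SetTheory.Cardinal.Finite
import Mathlib.Tactic.Module
import Mathlib.Tactic.LinearCombination

/-!
# Tate modules of divisible groups of height two

For an abelian group `A` whose `p ^ n`-torsion is free of rank two over `ZMod (p ^ n)`, a
compatible system of bases identifies the Tate module with `ℤ_[p] × ℤ_[p]`, and an action on `A`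
becomes a linear action on `ℤ_[p] × ℤ_[p]`.
-/

set_option autoImplicit false

noncomputable section

namespace Fermat.Agent.EC.Rep

variable (A : Type) [AddCommGroup A] (p : ℕ)

/-- Compatible bases of the `p ^ n`-torsion of `A`, for all `n`. -/
structure TateBasis where
  /-- The first basis vectors. -/
  P : ℕ → A
  /-- The second basis vectors. -/
  Q : ℕ → A
  zero_P : P 0 = 0
  zero_Q : Q 0 = 0
  step_P : ∀ n, (p : ℤ) • P (n + 1) = P n
  step_Q : ∀ n, (p : ℤ) • Q (n + 1) = Q n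
  indep : ∀ a b : ℤ, a • P 1 + b • Q 1 = 0 → (p : ℤ) ∣ a ∧ (p : ℤ) ∣ b
  card : ∀ n : ℕ, Nat.card (Submodule.torsionBy ℤ A (p ^ n : ℕ)) = (p ^ n) ^ 2

variable {A p}

theorem exists_tateBasis (hdiv : ∀ x : A, ∃ y, (p : ℤ) • y = x)
    (hcard : ∀ n : ℕ, Nat.card (Submodule.torsionBy ℤ A (p ^ n : ℕ)) = (p ^ n) ^ 2)
    {P₁ Q₁ : A} (hP : (p : ℤ) • P₁ = 0) (hQ : (p : ℤ) • Q₁ = 0)
    (hind : ∀ a b : ℤ, a • P₁ + b • Q₁ = 0 → (p : ℤ) ∣ a ∧ (p : ℤ) ∣ b) :
    ∃ B : TateBasis A p, B.P 1 = P₁ ∧ B.Q 1 = Q₁ := by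
  choose d hd using hdiv
  let seq : A → ℕ → A := fun X n => match n with
    | 0 => 0
    | k + 1 => d^[k] X
  have hstep : ∀ X, (p : ℤ) • X = 0 → ∀ n, (p : ℤ) • seq X (n + 1) = seq X n := by
    intro X hX n
    match n with
    | 0 => exact hX
    | k + 1 =>
      show (p : ℤ) • d^[k + 1] X = d^[k] X
      rw [Function.iterate_succ_apply', hd]
  exact ⟨⟨seq P₁, seq Q₁, rfl, rfl, hstep P₁ hP, hstep Q₁ hQ, hind, hcard⟩, rfl, rfl⟩

namespace TateBasis

variable (B : TateBasis A p)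

theorem pow_smul_P (j k : ℕ) : (p : ℤ) ^ k • B.P (j + k) = B.P j := by
  induction k with
  | zero => simp
  | succ k ih => rw [pow_succ, mul_smul, ← Nat.add_assoc, B.step_P, ih]

theorem pow_smul_Q (j k : ℕ) : (p : ℤ) ^ k • B.Q (j + k) = B.Q j := by
  induction k with
  | zero => simp
  | succ k ih => rw [pow_succ, mul_smul, ← Nat.add_assoc, B.step_Q, ih]

theorem pow_smul_P_self (n : ℕ) : (p : ℤ) ^ n • B.P n = 0 := by
  have := B.pow_smul_P 0 n
  rwa [Nat.zero_add, B.zero_P] at this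

theorem pow_smul_Q_self (n : ℕ) : (p : ℤ) ^ n • B.Q n = 0 := by
  have := B.pow_smul_Q 0 n
  rwa [Nat.zero_add, B.zero_Q] at this

theorem dvd_of_eq_zero (n : ℕ) : ∀ a b : ℤ, a • B.P n + b • B.Q n = 0 →
    (p : ℤ) ^ n ∣ a ∧ (p : ℤ) ^ n ∣ b := by
  induction n with
  | zero => exact fun a b _ => ⟨⟨a, by simp⟩, ⟨b, by simp⟩⟩
  | succ n ih =>
    intro a b h
    have h1 := congrArg ((p : ℤ) • ·) h
    simp only [smul_add, smul_comm (p : ℤ), B.step_P, B.step_Q, smul_zero] at h1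
    obtain ⟨⟨a', rfl⟩, ⟨b', rfl⟩⟩ := ih a b h1
    rw [mul_comm _ a', mul_comm _ b', mul_smul, mul_smul, Nat.add_comm n 1, B.pow_smul_P,
      B.pow_smul_Q] at h
    obtain ⟨ha, hb⟩ := B.indep a' b' h
    rw [pow_succ]
    exact ⟨mul_dvd_mul_left _ ha, mul_dvd_mul_left _ hb⟩

/-- Evaluation of a `p ^ n`-torsion element at a class modulo `p ^ n`. -/
def evalZMod (X : A) (n : ℕ) (h : (p : ℤ) ^ n • X = 0) : ZMod (p ^ n) →+ A :=
  ZMod.lift (p ^ n) ⟨zmultiplesHom A X, by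
    rw [zmultiplesHom_apply]; push_cast; exact h⟩

theorem evalZMod_intCast (X : A) (n : ℕ) (h : (p : ℤ) ^ n • X = 0) (a : ℤ) :
    evalZMod X n h (a : ZMod (p ^ n)) = a • X := by
  rw [evalZMod, ZMod.lift_coe, zmultiplesHom_apply]

variable [Fact p.Prime]

/-- The point of level `n` of an element of `ℤ_[p] × ℤ_[p]`. -/
def red (n : ℕ) : ℤ_[p] × ℤ_[p] →+ A :=
  ((evalZMod (B.P n) n (B.pow_smul_P_self n)).comp
      ((PadicInt.toZModPow n).toAddMonoidHom.comp (AddMonoidHom.fst _ _))) +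
    ((evalZMod (B.Q n) n (B.pow_smul_Q_self n)).comp
      ((PadicInt.toZModPow n).toAddMonoidHom.comp (AddMonoidHom.snd _ _)))

/-- The reduction of an integral vector in the chosen bases. -/
theorem red_intCast (n : ℕ) (a b : ℤ) :
    B.red n ((a : ℤ_[p]), (b : ℤ_[p])) = a • B.P n + b • B.Q n := by
  simp [red, evalZMod_intCast]

omit B in
/-- `ℤ` is dense in `ℤ_[p]`. -/
theorem exists_int_sub_mem (n : ℕ) (x : ℤ_[p]) :
    ∃ a : ℤ, x - a ∈ Ideal.span {(p : ℤ_[p]) ^ n} :=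
  ⟨x.appr n, by push_cast; exact PadicInt.appr_spec n x⟩

omit B in
theorem toZModPow_eq_of_sub_mem {n : ℕ} {x y : ℤ_[p]}
    (h : x - y ∈ Ideal.span {(p : ℤ_[p]) ^ n}) :
    PadicInt.toZModPow n x = PadicInt.toZModPow n y := by
  rw [← sub_eq_zero, ← map_sub, ← RingHom.mem_ker, PadicInt.ker_toZModPow]
  exact h

theorem red_congr {n : ℕ} {v w : ℤ_[p] × ℤ_[p]}
    (h₁ : v.1 - w.1 ∈ Ideal.span {(p : ℤ_[p]) ^ n})
    (h₂ : v.2 - w.2 ∈ Ideal.span {(p : ℤ_[p]) ^ n}) : B.red n v = B.red n w := by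
  simp [red, toZModPow_eq_of_sub_mem h₁, toZModPow_eq_of_sub_mem h₂]

/-- Every reduction is computed by integers congruent to the coordinates. -/
theorem exists_red_eq (n : ℕ) (v : ℤ_[p] × ℤ_[p]) :
    ∃ a b : ℤ, v.1 - a ∈ Ideal.span {(p : ℤ_[p]) ^ n} ∧ v.2 - b ∈ Ideal.span {(p : ℤ_[p]) ^ n} ∧
      B.red n v = a • B.P n + b • B.Q n := by
  obtain ⟨a, ha⟩ := exists_int_sub_mem n v.1
  obtain ⟨b, hb⟩ := exists_int_sub_mem n v.2
  exact ⟨a, b, ha, hb, by rw [← red_intCast]; exact B.red_congr ha hb⟩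

theorem pow_smul_red (n : ℕ) (v : ℤ_[p] × ℤ_[p]) : (p : ℤ) ^ n • B.red n v = 0 := by
  obtain ⟨a, b, -, -, e⟩ := B.exists_red_eq n v
  rw [e, smul_add, smul_comm _ a, smul_comm _ b, B.pow_smul_P_self, B.pow_smul_Q_self,
    smul_zero, smul_zero, add_zero]

/-- The kernel of reduction modulo `p ^ n` consists of the multiples of `p ^ n`. -/
theorem red_eq_zero_iff (n : ℕ) (v : ℤ_[p] × ℤ_[p]) :
    B.red n v = 0 ↔ v.1 ∈ Ideal.span {(p : ℤ_[p]) ^ n} ∧ v.2 ∈ Ideal.span {(p : ℤ_[p]) ^ n} := by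
  constructor
  · intro h
    obtain ⟨a, b, ha, hb, e⟩ := B.exists_red_eq n v
    obtain ⟨⟨a', ha'⟩, ⟨b', hb'⟩⟩ := B.dvd_of_eq_zero n a b (e ▸ h)
    constructor
    · have := Ideal.add_mem _ ha (Ideal.mul_mem_right (a' : ℤ_[p]) _
        (Ideal.mem_span_singleton_self ((p : ℤ_[p]) ^ n)))
      rw [ha'] at this
      push_cast at this
      simpa using this
    · have := Ideal.add_mem _ hb (Ideal.mul_mem_right (b' : ℤ_[p]) _
        (Ideal.mem_span_singleton_self ((p : ℤ_[p]) ^ n)))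
      rw [hb'] at this
      push_cast at this
      simpa using this
  · intro h
    rw [← map_zero (B.red n)]
    exact B.red_congr (by simpa using h.1) (by simpa using h.2)

theorem smul_red_succ (n : ℕ) (v : ℤ_[p] × ℤ_[p]) :
    (p : ℤ) • B.red (n + 1) v = B.red n v := by
  obtain ⟨a, b, ha, hb, e⟩ := B.exists_red_eq (n + 1) v
  have hle : Ideal.span {(p : ℤ_[p]) ^ (n + 1)} ≤ Ideal.span {(p : ℤ_[p]) ^ n} :=
    Ideal.span_singleton_le_span_singleton.mpr (pow_dvd_pow _ n.le_succ)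
  have e' : B.red n v = B.red n ((a : ℤ_[p]), (b : ℤ_[p])) := B.red_congr (hle ha) (hle hb)
  rw [e', red_intCast, e, smul_add, smul_comm _ a, smul_comm _ b, B.step_P, B.step_Q]

/-- Every `p ^ n`-torsion element is a reduction. -/
theorem exists_red (n : ℕ) {x : A} (hx : (p : ℤ) ^ n • x = 0) : ∃ v, B.red n v = x := by
  have hp : p.Prime := Fact.out
  have : NeZero (p ^ n) := ⟨pow_ne_zero n hp.ne_zero⟩
  let f : ZMod (p ^ n) × ZMod (p ^ n) → Submodule.torsionBy ℤ A (p ^ n : ℕ) := fun c =>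
    ⟨B.red n ((c.1.val : ℤ_[p]), (c.2.val : ℤ_[p])), by
      rw [Submodule.mem_torsionBy_iff]; push_cast; exact B.pow_smul_red n _⟩
  have hf : Function.Injective f := by
    intro c c' e
    have e' : B.red n (((c.1.val : ℤ) : ℤ_[p]), ((c.2.val : ℤ) : ℤ_[p])) =
        B.red n (((c'.1.val : ℤ) : ℤ_[p]), ((c'.2.val : ℤ) : ℤ_[p])) := by
      push_cast
      exact congrArg Subtype.val e
    rw [red_intCast, red_intCast, ← sub_eq_zero] at e'
    obtain ⟨h1, h2⟩ := B.dvd_of_eq_zero n ((c.1.val : ℤ) - c'.1.val) ((c.2.val : ℤ) - c'.2.val)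
      (by rw [sub_smul, sub_smul, ← e']; abel)
    have key : ∀ z z' : ZMod (p ^ n), (p : ℤ) ^ n ∣ (z.val : ℤ) - z'.val → z = z' := by
      intro z z' hzz
      have h3 : ((z.val : ℤ) : ZMod (p ^ n)) = ((z'.val : ℤ) : ZMod (p ^ n)) := by
        rw [eq_comm, ZMod.intCast_eq_intCast_iff_dvd_sub]
        push_cast
        exact hzz
      simpa using h3
    exact Prod.ext (key _ _ h1) (key _ _ h2)
  have : Finite (Submodule.torsionBy ℤ A (p ^ n : ℕ)) :=
    Nat.finite_of_card_ne_zero (by rw [B.card]; exact pow_ne_zero _ (pow_ne_zero n hp.ne_zero))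
  have hb : Function.Bijective f := (Nat.bijective_iff_injective_and_card f).mpr ⟨hf, by
    rw [Nat.card_prod, Nat.card_zmod, B.card, sq]⟩
  obtain ⟨c, hc⟩ := hb.2 ⟨x, by rw [Submodule.mem_torsionBy_iff]; push_cast; exact hx⟩
  exact ⟨_, congrArg Subtype.val hc⟩

theorem eq_zero_of_forall_red {v : ℤ_[p] × ℤ_[p]} (h : ∀ n, B.red n v = 0) : v = 0 := by
  have key : ∀ x : ℤ_[p], (∀ n, x ∈ Ideal.span {(p : ℤ_[p]) ^ n}) → x = 0 := fun x hx => by
    rw [← PadicInt.ext_of_toZModPow]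
    intro n
    exact toZModPow_eq_of_sub_mem (by simpa using hx n)
  exact Prod.ext (key _ fun n => ((B.red_eq_zero_iff n v).mp (h n)).1)
    (key _ fun n => ((B.red_eq_zero_iff n v).mp (h n)).2)

theorem ext_red {v w : ℤ_[p] × ℤ_[p]} (h : ∀ n, B.red n v = B.red n w) : v = w :=
  sub_eq_zero.mp (B.eq_zero_of_forall_red fun n => by rw [map_sub, h, sub_self])

/-- Compatible torsion points come from the Tate module. -/
theorem exists_forall_red_eq (f : ℕ → A) (htor : ∀ n, (p : ℤ) ^ n • f n = 0)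
    (hf : ∀ n, (p : ℤ) • f (n + 1) = f n) : ∃ v, ∀ n, B.red n v = f n := by
  choose v hv using fun n => B.exists_red n (htor n)
  have hpow : ∀ j m, (p : ℤ) ^ j • f (m + j) = f m := by
    intro j m
    induction j with
    | zero => simp
    | succ j ih => rw [pow_succ, mul_smul, ← Nat.add_assoc, hf, ih]
  have hred : ∀ j m w, (p : ℤ) ^ j • B.red (m + j) w = B.red m w := by
    intro j m w
    induction j with
    | zero => simp
    | succ j ih => rw [pow_succ, mul_smul, ← Nat.add_assoc, B.smul_red_succ, ih]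
  have hcomp : ∀ m n, m ≤ n → B.red m (v n - v m) = 0 := by
    intro m n hmn
    obtain ⟨j, rfl⟩ := Nat.exists_eq_add_of_le hmn
    rw [map_sub, ← hred j m (v (m + j)), hv, hv, hpow, sub_self]
  have hprec : ∀ g : ℕ → ℤ_[p], (∀ {m n}, m ≤ n → g n - g m ∈ Ideal.span {(p : ℤ_[p]) ^ m}) →
      ∃ L, ∀ m, g m - L ∈ Ideal.span {(p : ℤ_[p]) ^ m} := by
    intro g hg
    obtain ⟨L, hL⟩ := IsPrecomplete.prec' (I := IsLocalRing.maximalIdeal ℤ_[p]) g
        (fun {m n} hmn => by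
      rw [SModEq.sub_mem, smul_eq_mul, Ideal.mul_top, PadicInt.maximalIdeal_eq_span_p,
        Ideal.span_singleton_pow, ← neg_sub]
      exact neg_mem (hg hmn))
    refine ⟨L, fun m => ?_⟩
    have := hL m
    rwa [SModEq.sub_mem, smul_eq_mul, Ideal.mul_top, PadicInt.maximalIdeal_eq_span_p,
      Ideal.span_singleton_pow] at this
  obtain ⟨L₁, hL₁⟩ := hprec (fun n => (v n).1)
    fun {m n} h => ((B.red_eq_zero_iff m _).mp (hcomp m n h)).1
  obtain ⟨L₂, hL₂⟩ := hprec (fun n => (v n).2)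
    fun {m n} h => ((B.red_eq_zero_iff m _).mp (hcomp m n h)).2
  refine ⟨(L₁, L₂), fun n => ?_⟩
  rw [← hv n]
  exact (B.red_congr (hL₁ n) (hL₂ n)).symm

theorem red_smul_of_sub_mem {n : ℕ} {c : ℤ_[p]} {a : ℤ}
    (h : c - a ∈ Ideal.span {(p : ℤ_[p]) ^ n}) (v : ℤ_[p] × ℤ_[p]) :
    B.red n (c • v) = a • B.red n v := by
  rw [← map_zsmul]
  refine B.red_congr ?_ ?_
  · simpa [sub_mul] using Ideal.mul_mem_right v.1 _ h
  · simpa [sub_mul] using Ideal.mul_mem_right v.2 _ h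

section Action

variable {G : Type} [Monoid G] [DistribMulAction G A]

theorem exists_red_eq_smul (σ : G) (v : ℤ_[p] × ℤ_[p]) :
    ∃ w, ∀ n, B.red n w = σ • B.red n v := by
  refine B.exists_forall_red_eq _ (fun n => ?_) (fun n => ?_)
  · rw [← smul_comm σ, B.pow_smul_red, smul_zero]
  · rw [← smul_comm σ, B.smul_red_succ]

/-- The action on the Tate module. -/
def actLin (σ : G) : Module.End ℤ_[p] (ℤ_[p] × ℤ_[p]) where
  toFun v := (B.exists_red_eq_smul σ v).choose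
  map_add' v w := B.ext_red fun n => by
    rw [map_add, (B.exists_red_eq_smul σ _).choose_spec, (B.exists_red_eq_smul σ _).choose_spec,
      (B.exists_red_eq_smul σ _).choose_spec, map_add, smul_add]
  map_smul' c v := B.ext_red fun n => by
    obtain ⟨a, ha⟩ := exists_int_sub_mem n c
    rw [RingHom.id_apply, (B.exists_red_eq_smul σ _).choose_spec, B.red_smul_of_sub_mem ha,
      B.red_smul_of_sub_mem ha, (B.exists_red_eq_smul σ _).choose_spec, smul_comm]

theorem red_actLin (σ : G) (n : ℕ) (v : ℤ_[p] × ℤ_[p]) :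
    B.red n (B.actLin σ v) = σ • B.red n v :=
  (B.exists_red_eq_smul σ v).choose_spec n

variable (G) in
/-- The Tate module representation. -/
def act : G →* Module.End ℤ_[p] (ℤ_[p] × ℤ_[p]) where
  toFun := B.actLin
  map_one' := LinearMap.ext fun v => B.ext_red fun n => by
    rw [B.red_actLin, one_smul, Module.End.one_apply]
  map_mul' σ τ := LinearMap.ext fun v => B.ext_red fun n => by
    rw [B.red_actLin, mul_smul, Module.End.mul_apply, B.red_actLin, B.red_actLin]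

/-- Reduction intertwines the actions. -/
theorem red_act (σ : G) (n : ℕ) (v : ℤ_[p] × ℤ_[p]) :
    B.red n (B.act G σ v) = σ • B.red n v :=
  B.red_actLin σ n v

theorem act_sub_mem_of_fix {σ : G} {n : ℕ}
    (h : ∀ x : A, (p : ℤ) ^ n • x = 0 → σ • x = x) (v : ℤ_[p] × ℤ_[p]) :
    B.act G σ v - v ∈
      (Ideal.span {(p : ℤ_[p]) ^ n}) • (⊤ : Submodule ℤ_[p] (ℤ_[p] × ℤ_[p])) := by
  have h0 : B.red n (B.act G σ v - v) = 0 := by
    rw [map_sub, B.red_act, h _ (B.pow_smul_red n v), sub_self]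
  obtain ⟨h1, h2⟩ := (B.red_eq_zero_iff n _).mp h0
  obtain ⟨c₁, hc₁⟩ := Ideal.mem_span_singleton'.mp h1
  obtain ⟨c₂, hc₂⟩ := Ideal.mem_span_singleton'.mp h2
  have e : B.act G σ v - v = (p : ℤ_[p]) ^ n • ((c₁, c₂) : ℤ_[p] × ℤ_[p]) := by
    refine Prod.ext ?_ ?_
    · rw [Prod.smul_fst, smul_eq_mul, mul_comm, hc₁]
    · rw [Prod.smul_snd, smul_eq_mul, mul_comm, hc₂]
  rw [e]
  exact Submodule.smul_mem_smul (Ideal.mem_span_singleton_self _) Submodule.mem_top

theorem act_eq_one_of_fix {σ : G} (h : ∀ n, ∀ x : A, (p : ℤ) ^ n • x = 0 → σ • x = x) :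
    B.act G σ = 1 :=
  LinearMap.ext fun v => B.ext_red fun n => by
    rw [B.red_act, h n _ (B.pow_smul_red n v), Module.End.one_apply]

end Action

end TateBasis

end Fermat.Agent.EC.Rep
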